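import Fermat.Agent.JacRep.Fibrewise.Basic
import Fermat.Agent.JacRep.Degree
import Mathlib.RingTheory.Adjoin.Basic

/-!
# Degree zero implies algebraic triviality

`isAlgEquivZero_of_degreeZero`: over an algebraically closed field `K` a rigidified module of
degree zero is algebraically equivalent to zero. Its bundle is a sum of point bundles
(`Bundle.exists_pointBundles`); `exists_family` puts such a sum in a family over a finitely
generated `K`-domain (a tensor product of copies of the chart rings) having also a trivial member,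
and the dictionary turns it into a connecting family over a geometrically integral base.
-/

set_option autoImplicit false
set_option linter.style.haveILetI false

noncomputable section

open CategoryTheory CategoryTheory.Limits AlgebraicGeometry AlgebraicGeometry.RelPicard
  NeronModelInfra
open scoped TensorProduct Polynomial

universe u

namespace FLTAgent.JacRep

variable {k : Type u} [Field k] [IsAlgClosed k] {Cv : Cover k} {C : Scheme.{u}}
  {c : C ⟶ Spec (CommRingCat.of k)} {ε : SchemeHomOver (𝟙 (Spec (CommRingCat.of k))) c}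
  {W : Realization Cv c ε}

omit [IsAlgClosed k] in
/-- An algebra finite free over a coordinate is of finite type. -/
theorem finiteType_of_basis {A : Type u} [CommRing A] [Algebra k A] {n : ℕ} (x : A)
    (b : Fin n → A)
    (h : Function.Bijective fun c : Fin n → k[X] => ∑ i, Polynomial.aeval x (c i) * b i) :
    Algebra.FiniteType k A := by
  classical
  refine ⟨⟨insert x (Finset.univ.image b), ?_⟩⟩
  rw [eq_top_iff]
  intro a _
  obtain ⟨c, rfl⟩ := h.2 a
  refine Subalgebra.sum_mem _ fun i _ => Subalgebra.mul_mem _ ?_ (Algebra.subset_adjoin (by simp))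
  exact Algebra.adjoin_mono (Set.singleton_subset_iff.2 (by simp))
    (Polynomial.aeval_mem_adjoin_singleton k x)

/-- A chain of point bundles lies in a family over a finitely generated domain. -/
theorem exists_family (D : Dictionary W) {K : Type u} [Field K] [IsAlgClosed K] [Algebra k K]
    (n : ℕ) (Q : Fin n → Bundle Cv K) (S : Fin (n + 1) → Bundle Cv K)
    (hQ : ∀ i, ∃ (A : Type u) (_ : CommRing A) (_ : Algebra k A) (_ : Algebra.FiniteType k A)
      (_ : IsDomain A) (P : Bundle Cv A) (β : A →ₐ[k] k) (U : Bundle Cv k) (φ : A →ₐ[k] K),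
      P.IsRigidified ∧ P.DegreeZero ∧ Bundle.IsPullback β P U ∧ IsTrivial U ∧
        Bundle.IsPullback φ P (Q i))
    (h0 : IsTrivial (S 0)) (hS : ∀ i : Fin n, Bundle.IsTensor (S i.castSucc) (Q i) (S i.succ)) :
    ∃ (B : Type u) (_ : CommRing B) (_ : Algebra k B) (_ : Algebra K B) (_ : IsScalarTower k K B)
      (_ : Algebra.FiniteType K B) (_ : IsDomain B) (F : Bundle Cv B) (p₀ p₁ : B →ₐ[K] K)
      (U : Bundle Cv K),
      F.IsRigidified ∧ F.DegreeZero ∧ Bundle.IsPullback (p₀.restrictScalars k) F U ∧ IsTrivial U ∧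
        Bundle.IsPullback (p₁.restrictScalars k) F (S (Fin.last n)) := by
  induction n with
  | zero =>
    refine ⟨K, inferInstance, inferInstance, inferInstance, inferInstance, inferInstance,
      inferInstance, S 0, AlgHom.id K K, AlgHom.id K K, S 0, ?_, ?_, Bundle.isPullback_id _, h0,
      Bundle.isPullback_id _⟩
    · exact Bundle.IsPullback.isRigidified (Bundle.isPullback_of_iso (Bundle.iso_refl _)
        (IsTrivial.iso (D.unit_trivial K) h0) (Bundle.isPullback_id _)) (D.isRigidified K _)
    · intro L _ _ φ X U hX hU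
      exact euler_congr (IsTrivial.iso hU (IsTrivial.pullback D h0 hX))
  | succ n ih =>
    obtain ⟨B, _, _, _, _, _, _, F, p₀, p₁, U, hr, hd, hU, hUt, hp₁⟩ :=
      ih (fun i => Q i.castSucc) (fun i => S i.castSucc) (fun i => hQ i.castSucc) h0
        (fun i => hS i.castSucc)
    obtain ⟨A, _, _, _, _, P, β, U₀, φ, hPr, hPd, hβ, hU₀, hφ⟩ := hQ (Fin.last n)
    let iL : B →ₐ[k] B ⊗[k] A := Algebra.TensorProduct.includeLeft
    let iR : A →ₐ[k] B ⊗[k] A := Algebra.TensorProduct.includeRight
    obtain ⟨F', hF'⟩ := Bundle.exists_pullback iL F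
    obtain ⟨P', hP'⟩ := Bundle.exists_pullback iR P
    obtain ⟨G, hG⟩ := Bundle.exists_tensor F' P'
    haveI : IsDomain (B ⊗[k] A) := isDomain_tensor
    haveI : Algebra.FiniteType B (B ⊗[k] A) := inferInstance
    haveI : Algebra.FiniteType K (B ⊗[k] A) :=
      Algebra.FiniteType.trans (S := B) inferInstance inferInstance
    have hpull : ∀ (p : B →ₐ[K] K) (ψ : A →ₐ[k] K) (X Y Z : Bundle Cv K),
        Bundle.IsPullback (p.restrictScalars k) F X → Bundle.IsPullback ψ P Y →
        Bundle.IsTensor X Y Z →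
        Bundle.IsPullback ((Algebra.TensorProduct.lift p ψ fun _ _ => Commute.all _ _ :
          B ⊗[k] A →ₐ[K] K).restrictScalars k) G Z := by
      intro p ψ X Y Z hX hY hZ
      set q := (Algebra.TensorProduct.lift p ψ fun _ _ => Commute.all _ _ :
        B ⊗[k] A →ₐ[K] K).restrictScalars k with hq
      have h₁ : q.comp iL = p.restrictScalars k := AlgHom.ext fun b => by simp [q, iL]
      have h₂ : q.comp iR = ψ := AlgHom.ext fun b => by simp [q, iR]
      obtain ⟨X', hX'⟩ := Bundle.exists_pullback q F'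
      obtain ⟨Y', hY'⟩ := Bundle.exists_pullback q P'
      have hXX : X.Iso X' := Bundle.isPullback_unique (Bundle.iso_refl F) hX
        (h₁ ▸ Bundle.isPullback_comp hF' hX')
      have hYY : Y.Iso Y' := Bundle.isPullback_unique (Bundle.iso_refl P) hY
        (h₂ ▸ Bundle.isPullback_comp hP' hY')
      exact Bundle.isTensor_pullback hX' hY' hG (isTensor_congr hZ hXX hYY (Bundle.iso_refl Z))
    obtain ⟨U₁, hU₁⟩ := Bundle.exists_pullback (Algebra.ofId k K) U₀
    have hU₁t : IsTrivial U₁ := IsTrivial.pullback D hU₀ hU₁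
    refine ⟨B ⊗[k] A, inferInstance, inferInstance, inferInstance, inferInstance, inferInstance,
      inferInstance, G,
      Algebra.TensorProduct.lift p₀ ((Algebra.ofId k K).comp β) fun _ _ => Commute.all _ _,
      Algebra.TensorProduct.lift p₁ φ fun _ _ => Commute.all _ _, U₁, ?_, ?_, ?_, hU₁t, ?_⟩
    · exact Bundle.isRigidified_tensor hG (hF'.isRigidified hr) (hP'.isRigidified hPr)
    · refine degreeZero_tensor hG ?_ ?_
      · exact fun L _ _ ψ X U hX hU => hd L _ X U (Bundle.isPullback_comp hF' hX) hU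
      · exact fun L _ _ ψ X U hX hU => hPd L _ X U (Bundle.isPullback_comp hP' hX) hU
    · exact hpull p₀ _ U U₁ U₁ hU (Bundle.isPullback_comp hβ hU₁)
        (IsTrivial.isTensor_left U₁ hUt)
    · exact hpull p₁ φ _ _ _ hp₁ hφ (hS (Fin.last n))

/-- **Degree zero bundles are algebraically trivial.** -/
theorem isAlgEquivZero_of_degreeZero (D : Dictionary W) {K : Type u} [Field K] [IsAlgClosed K]
    [Algebra k K] (N : RigidifiedLineBundle c ε (specStr k K))
    (hd : (D.toBundle K N).DegreeZero) :
    IsAlgEquivZero (pullback.snd c (specStr k K)) N.L := by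
  obtain ⟨P₀, P₁, P, ⟨hr₀, hd₀⟩, ⟨hr₁, hd₁⟩, hp₀, hp₁, ⟨U₀, hU₀, hU₀t⟩, g, hg⟩ :=
    Bundle.exists_pointBundles Cv
  obtain ⟨Q, S, hQ, hS0, hS, hlast⟩ := hg K _ (D.isRigidified K N) hd
  letI := Cv.res₀.toRingHom.toAlgebra
  haveI : IsLocalization.Away Cv.x Cv.A := Cv.away₀
  have hunit : IsUnit (Cv.base Cv.x) := isUnit_iff_ne_zero.2 Cv.base_x
  let bA : Cv.A →+* k := IsLocalization.Away.lift Cv.x (g := Cv.base.toRingHom) hunit
  have hbA : ∀ a, bA (Cv.res₀ a) = Cv.base a :=
    fun a => IsLocalization.Away.lift_eq Cv.x hunit a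
  let bA' : Cv.A →ₐ[k] k := ⟨bA, fun r => by
    rw [← Cv.res₀.commutes r]; exact (hbA _).trans (Cv.base.commutes r)⟩
  haveI : Algebra.FiniteType k Cv.A₀ := finiteType_of_basis Cv.x _ Cv.basis₀_bijective
  haveI : Algebra.FiniteType k Cv.A₁ := finiteType_of_basis Cv.y _ Cv.basis₁_bijective
  haveI : IsDomain Cv.A₀ :=
    haveI := Cv.dedekind₀ k
    MulEquiv.isDomain _ (Algebra.TensorProduct.lid k Cv.A₀).toMulEquiv.symm
  haveI : IsDomain Cv.A₁ :=
    haveI := Cv.dedekind₁ k
    MulEquiv.isDomain _ (Algebra.TensorProduct.lid k Cv.A₁).toMulEquiv.symm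
  obtain ⟨X, hX⟩ := Bundle.exists_pullback bA' P
  have hX₀ : Bundle.IsPullback Cv.base P₀ X := by
    have := Bundle.isPullback_comp hp₀ hX
    rwa [show bA'.comp Cv.res₀ = Cv.base from AlgHom.ext hbA] at this
  have hXt : IsTrivial X :=
    IsTrivial.of_iso hU₀t (Bundle.isPullback_unique (Bundle.iso_refl _) hX₀ hU₀)
  obtain ⟨B, _, _, _, _, hBft, _, F, p₀, p₁, U, hFr, hFd, hU, hUt, hp⟩ :=
    exists_family D g Q S (fun i => by
      rcases hQ i with ⟨φ, hφ⟩ | ⟨φ, hφ⟩
      · exact ⟨Cv.A₀, inferInstance, inferInstance, inferInstance, inferInstance, P₀, Cv.base,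
          U₀, φ, hr₀, hd₀, hU₀, hU₀t, hφ⟩
      · exact ⟨Cv.A₁, inferInstance, inferInstance, inferInstance, inferInstance, P₁,
          bA'.comp Cv.res₁, X, φ, hr₁, hd₁, Bundle.isPullback_comp hp₁ hX, hXt, hφ⟩) hS0 hS
  obtain ⟨M, hM⟩ := D.surjective B F hFr
  let π := specStr k K
  let a := pullback.snd c π
  let h : Spec (CommRingCat.of B) ⟶ Spec (CommRingCat.of K) := specStr K B
  have hh : h ≫ π = specStr k B := by
    simp only [h, π, specStr]
    rw [← Spec.map_comp, ← CommRingCat.ofHom_comp, ← IsScalarTower.algebraMap_eq]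
  haveI : GeometricallyIntegral h := by
    refine ⟨fun L _ y Z fst snd hZ => ?_⟩
    obtain ⟨hA, hg⟩ := exists_algebra_specStr (R := (L : Type u)) y
    subst hg
    haveI : IsDomain (L ⊗[K] B) := isDomain_tensor
    haveI : IsDomain (B ⊗[K] L) :=
      MulEquiv.isDomain _ (Algebra.TensorProduct.comm K B L).toMulEquiv
    haveI : IsIntegral (pullback (specStr K B) (specStr K L)) :=
      AlgebraicGeometry.IsIntegral.of_isIso (pullbackSpecIso K B L).inv
    exact AlgebraicGeometry.IsIntegral.of_isIso hZ.isoPullback.inv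
  haveI : LocallyOfFiniteType h := by
    rw [HasRingHomProperty.Spec_iff (P := @LocallyOfFiniteType), CommRingCat.hom_ofHom,
      RingHom.finiteType_algebraMap]
    exact hBft
  let mq : pullback a h ⟶ pullback c (specStr k B) :=
    pullback.lift (pullback.fst a h ≫ pullback.fst c π) (pullback.snd a h) (by
      rw [Category.assoc, pullback.condition (f := c), ← Category.assoc, pullback.condition,
        Category.assoc, hh])
  have hpt : ∀ (p : B →ₐ[K] K) (V : Bundle Cv K) (N' : RigidifiedLineBundle c ε π),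
      Bundle.IsPullback (p.restrictScalars k) F V → (D.toBundle K N').Iso V →
      Nonempty ((Scheme.Modules.pullback (baseChangeSnd a ⟨(specOver p).1, (specOver p).2.trans
          (by show Spec.map (CommRingCat.ofHom (RingHom.id K)) = _
              rw [CommRingCat.ofHom_id, Spec.map_id])⟩)).obj
          ((Scheme.Modules.pullback mq).obj M.L) ≅
        (Scheme.Modules.pullback (pullback.fst a (𝟙 _))).obj N'.L) := by
    intro p V N' hp hV
    obtain ⟨f⟩ := (D.iso_iff K (M.pullbackAlong (specOver (p.restrictScalars k))) N').1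
      (Bundle.isPullback_unique (Bundle.iso_refl F)
        (Bundle.isPullback_of_iso hM (Bundle.iso_refl _) (D.isPullback B K _ M))
        (Bundle.isPullback_of_iso (Bundle.iso_refl F) (Bundle.iso_symm hV) hp))
    refine ⟨(Scheme.Modules.pullbackComp _ _).app M.L ≪≫
      (Scheme.Modules.pullbackCongr ?_).app M.L ≪≫
      ((Scheme.Modules.pullbackComp (pullback.fst a (𝟙 _))
        (baseChangeSnd c (specOver (p.restrictScalars k)))).app M.L).symm ≪≫
      (Scheme.Modules.pullback _).mapIso f⟩
    apply pullback.hom_ext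
    · simp only [mq, baseChangeSnd, pullback.map, Category.assoc, pullback.lift_fst,
        Category.comp_id]
      exact pullback.lift_fst_assoc _ _ _ _
    · simp only [mq, baseChangeSnd, pullback.map, Category.assoc, pullback.lift_snd]
      rw [← Category.assoc, show pullback.fst a (𝟙 _) ≫ pullback.snd c π = pullback.snd a (𝟙 _) by
        rw [← Category.comp_id (pullback.snd a (𝟙 _))]; exact pullback.condition]
      exact pullback.lift_snd _ _ _
  obtain ⟨f₀⟩ := hpt p₀ U (RigidifiedLineBundle.unit π) hU (IsTrivial.iso (D.unit_trivial K) hUt)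
  obtain ⟨f₁⟩ := hpt p₁ (S (Fin.last g)) N hp hlast
  exact ⟨Spec (CommRingCat.of B), h, inferInstance, inferInstance, _, M.isInvertible.pullback mq,
    _, _, ⟨f₀ ≪≫ Scheme.Modules.pullbackUnitIso _⟩, ⟨f₁⟩⟩

end FLTAgent.JacRep
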