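import Fermat.Agent.JacRep.Fibrewise.Basic
import Fermat.Agent.JacRep.Coh

/-!
# Algebraic triviality implies degree zero

`euler_of_isAlgEquivZero`: a rigidified module over an algebraically closed field which is
algebraically equivalent to zero has the Euler characteristic of the trivial bundle. Along the
connecting family the Euler characteristic of the fibres is constant on small affine opens
(`Bundle.euler_isLocallyConstant` after rigidifying there), hence equal at the two marked points,
as the base is irreducible and has rational points in every nonempty open set.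
-/

set_option autoImplicit false
set_option linter.style.haveILetI false

noncomputable section

open CategoryTheory CategoryTheory.Limits AlgebraicGeometry AlgebraicGeometry.RelPicard
  NeronModelInfra

universe u

namespace FLTAgent.JacRep

variable {k : Type u} [Field k] {Cv : Cover k} {C : Scheme.{u}}
  {c : C ⟶ Spec (CommRingCat.of k)} {ε : SchemeHomOver (𝟙 (Spec (CommRingCat.of k))) c}
  {W : Realization Cv c ε}

/-- **Algebraically trivial modules have the Euler characteristic of the trivial one.** -/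
theorem euler_of_isAlgEquivZero (D : Dictionary W) {K : Type u} [Field K] [IsAlgClosed K]
    [Algebra k K] (N : RigidifiedLineBundle c ε (specStr k K))
    (hN : IsAlgEquivZero (pullback.snd c (specStr k K)) N.L) :
    (D.toBundle K N).euler = (D.toBundle K (RigidifiedLineBundle.unit (specStr k K))).euler := by
  obtain ⟨T', h, hft, hgi, M', hM', t₀, t₁, ⟨e₀⟩, ⟨e₁⟩⟩ := hN
  let π := specStr k K
  let a := pullback.snd c π
  let tT : T' ⟶ Spec (CommRingCat.of k) := h ≫ π
  let mp : pullback c tT ⟶ pullback a h :=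
    pullback.lift (pullback.lift (pullback.fst _ _) (pullback.snd _ _ ≫ h)
      (by rw [pullback.condition, Category.assoc])) (pullback.snd _ _) (pullback.lift_snd _ _ _)
  let N' := (Scheme.Modules.pullback mp).obj M'
  have hN' : Scheme.Modules.IsInvertible N' := hM'.pullback mp
  let bar : SchemeHomOver (𝟙 (Spec (CommRingCat.of K))) h → SchemeHomOver π tT := fun p =>
    ⟨p.1, by rw [← Category.assoc, p.2, Category.id_comp]⟩
  let fib : SchemeHomOver (𝟙 (Spec (CommRingCat.of K))) h → RigidifiedLineBundle c ε π := fun p =>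
    mkRig N' hN' (bar p) (nonempty_trivial_field ((hN'.pullback _).pullback _))
  let χ := fun p => (D.toBundle K (fib p)).euler
  haveI : IrreducibleSpace T' := irreducibleSpace_of_geometricallyIntegral h
  -- the value is constant on small affine opens
  have hloc : ∀ x : T', ∃ V : T'.Opens, x ∈ V ∧
      ∀ p q : SchemeHomOver (𝟙 (Spec (CommRingCat.of K))) h,
        Set.range p.1.base ⊆ (V : Set T') → Set.range q.1.base ⊆ (V : Set T') → χ p = χ q := by
    intro x
    obtain ⟨S, j, hj, hxj, ⟨eS⟩⟩ :=
      exists_trivial_nhd (hN'.pullback (rigSection c tT ε)) x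
    obtain ⟨hA, hg⟩ := exists_algebra_specStr (k := k) (R := (S : Type u)) (j ≫ tT)
    let jbar : SchemeHomOver (specStr k S) tT := ⟨j, hg.symm⟩
    let NS := mkRig N' hN' jbar ⟨eS⟩
    obtain ⟨χS, hc, hχS⟩ := Bundle.euler_isLocallyConstant (D.toBundle S NS)
    refine ⟨j.opensRange, hxj, fun p q hp hq => ?_⟩
    have hpt : ∀ r : SchemeHomOver (𝟙 (Spec (CommRingCat.of K))) h,
        Set.range r.1.base ⊆ Set.range j.base → ∃ φ : (S : Type u) →ₐ[k] K,
          χ r = χS ⟨RingHom.ker (φ : (S : Type u) →+* K), RingHom.ker_isPrime _⟩ := by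
      intro r hr
      obtain ⟨φ, hφ⟩ := exists_specOver (R := (S : Type u)) (S := K)
        ⟨IsOpenImmersion.lift j r.1 hr, by
          rw [hg, ← Category.assoc, IsOpenImmersion.lift_fac]; exact (bar r).2⟩
      refine ⟨φ, hχS K φ _ (Bundle.isPullback_of_iso (Bundle.iso_refl _)
        ((D.iso_iff K _ _).2 ⟨?_⟩) (D.isPullback S K φ NS))⟩
      exact (Scheme.Modules.pullbackComp _ _).app N' ≪≫
        (Scheme.Modules.pullbackCongr ((baseChangeSnd_comp c jbar (specOver φ)).trans
          (congrArg (baseChangeSnd c) (Subtype.ext (by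
            show (specOver φ).1 ≫ j = r.1
            rw [hφ]; exact IsOpenImmersion.lift_fac _ _ _) :
            postComp jbar (specOver φ) = bar r)))).app N'
    obtain ⟨φ, hφ⟩ := hpt p hp
    obtain ⟨ψ, hψ⟩ := hpt q hq
    rw [hφ, hψ]
    set u₁ : PrimeSpectrum S := ⟨RingHom.ker (φ : (S : Type u) →+* K), RingHom.ker_isPrime _⟩
    set u₂ : PrimeSpectrum S := ⟨RingHom.ker (ψ : (S : Type u) →+* K), RingHom.ker_isPrime _⟩
    have ho : ∀ v : PrimeSpectrum S, IsOpen (j.base '' {w | χS w = χS v}) := fun v =>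
      j.isOpenEmbedding.isOpenMap _ (hc.isOpen_fiber (χS v))
    obtain ⟨_, ⟨w₁, hw₁, rfl⟩, ⟨w₂, hw₂, hw⟩⟩ := nonempty_preirreducible_inter (ho u₁) (ho u₂)
      ⟨j.base u₁, u₁, rfl, rfl⟩ ⟨j.base u₂, u₂, rfl, rfl⟩
    rw [j.isOpenEmbedding.injective hw] at hw₂
    exact hw₁.symm.trans hw₂
  have hmem : ∀ (p : SchemeHomOver (𝟙 (Spec (CommRingCat.of K))) h) (V : T'.Opens),
      p.1.base (IsLocalRing.closedPoint K) ∈ V → Set.range p.1.base ⊆ (V : Set T') := by
    rintro p V hV _ ⟨y, rfl⟩
    rw [Subsingleton.elim (α := PrimeSpectrum K) y (IsLocalRing.closedPoint K)]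
    exact hV
  obtain ⟨V₀, hx₀, hV₀⟩ := hloc (t₀.1.base (IsLocalRing.closedPoint K))
  obtain ⟨V₁, hx₁, hV₁⟩ := hloc (t₁.1.base (IsLocalRing.closedPoint K))
  obtain ⟨p, hp⟩ := exists_point_mem h (V₀ ⊓ V₁)
    (nonempty_preirreducible_inter V₀.2 V₁.2 ⟨_, hx₀⟩ ⟨_, hx₁⟩)
  have h01 : χ t₀ = χ t₁ := (hV₀ t₀ p (hmem _ _ hx₀) fun y hy => (hp hy).1).trans
    (hV₁ p t₁ (fun y hy => (hp hy).2) (hmem _ _ hx₁))
  let jK : pullback c π ⟶ pullback a (𝟙 (Spec (CommRingCat.of K))) :=
    pullback.lift (𝟙 _) (pullback.snd _ _) (by simp only [a, Category.id_comp, Category.comp_id])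
  have hj : ∀ r : SchemeHomOver (𝟙 (Spec (CommRingCat.of K))) h,
      baseChangeSnd c (bar r) ≫ mp = jK ≫ baseChangeSnd a r := by
    intro r
    apply pullback.hom_ext
    · apply pullback.hom_ext
      · simp only [jK, mp, bar, baseChangeSnd, pullback.map, Category.assoc, pullback.lift_fst,
          Category.comp_id]
        rw [Category.id_comp]
      · simp only [jK, mp, bar, a, baseChangeSnd, pullback.map, Category.assoc, pullback.lift_fst,
          pullback.lift_snd, pullback.lift_snd_assoc, Category.comp_id,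
          r.2]
        rw [Category.id_comp]
    · simp only [jK, mp, bar, baseChangeSnd, pullback.map, Category.assoc, pullback.lift_snd,
        pullback.lift_snd_assoc]
  have h0 : χ t₀ = (D.toBundle K (RigidifiedLineBundle.unit π)).euler := by
    refine euler_congr ((D.iso_iff K _ _).2 ⟨?_⟩)
    exact (Scheme.Modules.pullbackUnitIso jK).symm ≪≫ (Scheme.Modules.pullback jK).mapIso e₀.symm ≪≫
      (Scheme.Modules.pullbackComp _ _).app M' ≪≫
      (Scheme.Modules.pullbackCongr (hj t₀).symm).app M' ≪≫
      ((Scheme.Modules.pullbackComp _ _).app M').symm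
  have h1 : χ t₁ = (D.toBundle K N).euler := by
    refine euler_congr ((D.iso_iff K _ _).2 ⟨?_⟩)
    exact ((Scheme.Modules.pullbackId _).app N.L).symm ≪≫
      (Scheme.Modules.pullbackCongr (pullback.lift_fst _ _ _).symm).app N.L ≪≫
      ((Scheme.Modules.pullbackComp jK (pullback.fst a (𝟙 _))).app N.L).symm ≪≫
      (Scheme.Modules.pullback jK).mapIso e₁.symm ≪≫
      (Scheme.Modules.pullbackComp _ _).app M' ≪≫
      (Scheme.Modules.pullbackCongr (hj t₁).symm).app M' ≪≫
      ((Scheme.Modules.pullbackComp _ _).app M').symm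
  rw [← h1, ← h01, h0]

end FLTAgent.JacRep
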