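import Mathlib.RingTheory.Jacobson.Ring
import Mathlib.FieldTheory.IsAlgClosed.Basic
import Mathlib.LinearAlgebra.TensorProduct.Basis
import Mathlib.LinearAlgebra.Dimension.Free

/-!
# Tensor products of domains over an algebraically closed field

* `exists_point_of_isMaximal`: a maximal ideal of a finitely generated algebra is the kernel of a
  point with values in the ground field (Nullstellensatz).
* `isDomain_tensor`: a domain tensor a finitely generated domain is a domain; a product vanishing
  at every point forces one factor to vanish, as the algebra is a Jacobson ring.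
-/

set_option autoImplicit false
set_option linter.style.haveILetI false

noncomputable section

open scoped TensorProduct

universe u

namespace FLTAgent.JacRep

/-- Points of finite type algebras over algebraically closed fields. -/
theorem exists_point_of_isMaximal {k A : Type u} [Field k] [IsAlgClosed k] [CommRing A]
    [Algebra k A] [Algebra.FiniteType k A] (m : Ideal A) [m.IsMaximal] :
    ∃ φ : A →ₐ[k] k, RingHom.ker (φ : A →+* k) = m := by
  letI := Ideal.Quotient.field m
  haveI : Module.Finite k (A ⧸ m) := finite_of_finite_type_of_isJacobsonRing k (A ⧸ m)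
  haveI : Algebra.IsIntegral k (A ⧸ m) := Algebra.IsIntegral.of_finite k (A ⧸ m)
  have hbij := IsAlgClosed.algebraMap_bijective_of_isIntegral (k := k) (K := A ⧸ m)
  let e : k ≃ₐ[k] (A ⧸ m) := AlgEquiv.ofBijective (Algebra.ofId k (A ⧸ m)) hbij
  refine ⟨e.symm.toAlgHom.comp (Ideal.Quotient.mkₐ k m), ?_⟩
  ext a
  rw [RingHom.mem_ker]
  show e.symm (Ideal.Quotient.mk m a) = 0 ↔ a ∈ m
  rw [map_eq_zero_iff _ e.symm.injective, Ideal.Quotient.eq_zero_iff_mem]

/-- A domain tensor a finitely generated domain over an algebraically closed field is a domain. -/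
theorem isDomain_tensor {k A B : Type u} [Field k] [IsAlgClosed k] [CommRing A] [Algebra k A]
    [Algebra.FiniteType k A] [IsDomain A] [CommRing B] [Algebra k B] [IsDomain B] :
    IsDomain (B ⊗[k] A) := by
  haveI : Nontrivial (B ⊗[k] A) := by
    obtain ⟨m, hm⟩ := Ideal.exists_maximal A
    obtain ⟨φ, -⟩ := exists_point_of_isMaximal (k := k) m
    exact (((Algebra.TensorProduct.rid k k B).toAlgHom.comp
      (Algebra.TensorProduct.map (AlgHom.id k B) φ)) : B ⊗[k] A →+* B).domain_nontrivial
  haveI : NoZeroDivisors (B ⊗[k] A) := by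
    refine ⟨fun {z w} hzw => ?_⟩
    let b := Module.Free.chooseBasis k B
    let eq := TensorProduct.equivFinsuppOfBasisLeft (N := A) b
    have hz : ∀ (φ : A →ₐ[k] k) (y : B ⊗[k] A),
        Algebra.TensorProduct.rid k k B ((Algebra.TensorProduct.map (AlgHom.id k B) φ) y) = 0 →
          ∀ i, φ (eq y i) = 0 := by
      intro φ y hy i
      have hsum : y = (eq y).sum fun i a => b i ⊗ₜ[k] a := by
        conv_lhs => rw [← eq.symm_apply_apply y]
        exact TensorProduct.equivFinsuppOfBasisLeft_symm_apply b (eq y)
      rw [hsum, Finsupp.sum, map_sum, map_sum] at hy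
      simp only [Algebra.TensorProduct.map_tmul, AlgHom.id_apply,
        Algebra.TensorProduct.rid_tmul] at hy
      by_cases hi : i ∈ (eq y).support
      · exact linearIndependent_iff'.1 b.linearIndependent _ _ hy i hi
      · rw [Finsupp.notMem_support_iff.1 hi, map_zero]
    have hjac : ∀ s : A, (∀ φ : A →ₐ[k] k, φ s = 0) → s = 0 := by
      intro s hs
      haveI : IsJacobsonRing A := isJacobsonRing_of_finiteType (A := k) (B := A)
      have : s ∈ Ideal.jacobson (⊥ : Ideal A) := by
        rw [Ideal.jacobson, Submodule.mem_sInf]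
        rintro m ⟨-, hm⟩
        haveI := hm
        obtain ⟨φ, hφ⟩ := exists_point_of_isMaximal (k := k) m
        rw [← hφ]
        exact hs φ
      rwa [IsJacobsonRing.out (R := A) inferInstance Ideal.isPrime_bot.isRadical, Ideal.mem_bot] at this
    have hcases : ∀ φ : A →ₐ[k] k, (∀ i, φ (eq z i) = 0) ∨ ∀ j, φ (eq w j) = 0 := by
      intro φ
      have := congrArg (fun y => Algebra.TensorProduct.rid k k B
        ((Algebra.TensorProduct.map (AlgHom.id k B) φ) y)) hzw
      simp only [map_mul, map_zero] at this
      exact (mul_eq_zero.1 this).imp (hz φ z) (hz φ w)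
    by_contra! hne
    obtain ⟨i, hi⟩ : ∃ i, eq z i ≠ 0 := by
      by_contra! h
      exact hne.1 (eq.injective (by rw [map_zero]; exact Finsupp.ext h))
    obtain ⟨j, hj⟩ : ∃ j, eq w j ≠ 0 := by
      by_contra! h
      exact hne.2 (eq.injective (by rw [map_zero]; exact Finsupp.ext h))
    refine mul_ne_zero hi hj (hjac _ fun φ => ?_)
    rcases hcases φ with h | h
    · rw [map_mul, h i, zero_mul]
    · rw [map_mul, h j, mul_zero]
  exact NoZeroDivisors.to_isDomain _

end FLTAgent.JacRep
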