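import Fermat.Agent.JacRep.BundleAlg
import Mathlib.AlgebraicGeometry.Morphisms.FiniteType
import Mathlib.AlgebraicGeometry.Geometrically.Integral
import Fermat.Agent.JacRep.Fibrewise.Domain
import Fermat.Agent.JacRep.Asm.Hom

/-!
# Auxiliary facts about fibres of the relative curve

* `mkRig`: an invertible module becomes rigidified over a base on which its restriction to the
  section is trivial.
* `exists_affine_nhd`, `exists_trivial_nhd`, `nonempty_trivial_field`: invertible modules are
  trivial near every point, and on the spectrum of a field.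
* `exists_point_mem`, `irreducibleSpace_of_geometricallyIntegral`: rational points in open sets and
  irreducibility, for the bases of algebraically trivial families.
* `isAlgEquivZero_fibre_iff`: the fibre at a field-valued point is the base change to that field.
-/

set_option autoImplicit false
set_option linter.style.haveILetI false

noncomputable section

open CategoryTheory CategoryTheory.Limits AlgebraicGeometry AlgebraicGeometry.RelPicard
  NeronModelInfra

universe u

namespace FLTAgent.JacRep

variable {k : Type u} [Field k] {C : Scheme.{u}} {c : C ⟶ Spec (CommRingCat.of k)}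
  {ε : SchemeHomOver (𝟙 (Spec (CommRingCat.of k))) c}
  {T T' : Scheme.{u}} {t : T ⟶ Spec (CommRingCat.of k)} {t' : T' ⟶ Spec (CommRingCat.of k)}

/-- An invertible module on the relative curve, restricted to a base where its restriction to
the section is trivial. -/
def mkRig (M : (pullback c t).Modules) (hM : Scheme.Modules.IsInvertible M)
    (ψ : SchemeHomOver t' t) (h : Nonempty ((Scheme.Modules.pullback ψ.1).obj
      ((Scheme.Modules.pullback (rigSection c t ε)).obj M) ≅ SheafOfModules.unit T'.ringCatSheaf)) :
    RigidifiedLineBundle c ε t' where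
  L := (Scheme.Modules.pullback (baseChangeSnd c ψ)).obj M
  isInvertible := hM.pullback _
  rigidified := ⟨(Scheme.Modules.pullbackComp _ _).app M ≪≫
    (Scheme.Modules.pullbackCongr (rigSection_baseChangeSnd c ε ψ)).app M ≪≫
    ((Scheme.Modules.pullbackComp _ _).app M).symm ≪≫ h.some⟩

theorem exists_affine_nhd {X : Scheme.{u}} (V : X.Opens) {x : X} (hx : x ∈ V) :
    ∃ (R : CommRingCat.{u}) (j : Spec R ⟶ X), IsOpenImmersion j ∧ x ∈ Set.range j.base ∧
      Set.range j.base ⊆ (V : Set X) := by
  obtain ⟨_, ⟨W, hW, rfl⟩, hxW, hWV⟩ := X.isBasis_affineOpens.exists_subset_of_mem_open hx V.2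
  refine ⟨Γ(X, W), hW.fromSpec, hW.isOpenImmersion_fromSpec, ?_, ?_⟩
  · rw [hW.range_fromSpec]; exact hxW
  · rw [hW.range_fromSpec]; exact hWV

/-- Invertible modules are trivial on small affine opens. -/
theorem exists_trivial_nhd {X : Scheme.{u}} {N : X.Modules} (hN : Scheme.Modules.IsInvertible N)
    (x : X) : ∃ (R : CommRingCat.{u}) (j : Spec R ⟶ X), IsOpenImmersion j ∧
      x ∈ Set.range j.base ∧ Nonempty ((Scheme.Modules.pullback j).obj N ≅
        SheafOfModules.unit (Spec R).ringCatSheaf) := by
  obtain ⟨U, hxU, ⟨e⟩⟩ := hN.exists_trivialization x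
  obtain ⟨R, j, hj, hxj, hjU⟩ := exists_affine_nhd U hxU
  have hl : IsOpenImmersion.lift U.ι j (by simpa using hjU) ≫ U.ι = j :=
    IsOpenImmersion.lift_fac _ _ _
  exact ⟨R, j, hj, hxj, ⟨(Scheme.Modules.pullbackCongr hl.symm).app N ≪≫
    ((Scheme.Modules.pullbackComp _ _).app N).symm ≪≫
    (Scheme.Modules.pullback _).mapIso e ≪≫ Scheme.Modules.pullbackUnitIso _⟩⟩

/-- Invertible modules on the spectrum of a field are trivial. -/
theorem nonempty_trivial_field {K : Type u} [Field K] {N : (Spec (CommRingCat.of K)).Modules}
    (hN : Scheme.Modules.IsInvertible N) :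
    Nonempty (N ≅ SheafOfModules.unit (Spec (CommRingCat.of K)).ringCatSheaf) := by
  obtain ⟨R, j, hj, hxj, ⟨e⟩⟩ := exists_trivial_nhd hN (IsLocalRing.closedPoint K)
  haveI : Epi j.base := by
    rw [TopCat.epi_iff_surjective]
    intro y
    obtain ⟨z, hz⟩ := hxj
    exact ⟨z, hz.trans (Subsingleton.elim (α := PrimeSpectrum K) _ _)⟩
  haveI : IsIso j := IsOpenImmersion.isIso j
  exact ⟨((Scheme.Modules.pullbackId _).app N).symm ≪≫
    (Scheme.Modules.pullbackCongr (IsIso.inv_hom_id j).symm).app N ≪≫
    ((Scheme.Modules.pullbackComp _ _).app N).symm ≪≫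
    (Scheme.Modules.pullback (inv j)).mapIso e ≪≫ Scheme.Modules.pullbackUnitIso _⟩

/-- Points over algebraically closed fields in open sets. -/
theorem exists_point_mem {K : Type u} [Field K] [IsAlgClosed K] {X : Scheme.{u}}
    (h : X ⟶ Spec (CommRingCat.of K)) [LocallyOfFiniteType h] (V : X.Opens)
    (hV : (V : Set X).Nonempty) :
    ∃ p : SchemeHomOver (𝟙 (Spec (CommRingCat.of K))) h,
      Set.range p.1.base ⊆ (V : Set X) := by
  obtain ⟨x, hx⟩ := hV
  obtain ⟨R, j, hj, hxj, hjV⟩ := exists_affine_nhd V hx
  obtain ⟨hA, hg⟩ := exists_algebra_specStr (k := K) (R := (R : Type u)) (j ≫ h)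
  haveI : LocallyOfFiniteType (specStr K R) := hg ▸ inferInstance
  haveI : Algebra.FiniteType K R := by
    have := (HasRingHomProperty.Spec_iff (P := @LocallyOfFiniteType)
      (φ := CommRingCat.ofHom (algebraMap K R))).1 (inferInstance : LocallyOfFiniteType (specStr K R))
    rwa [CommRingCat.hom_ofHom, RingHom.finiteType_algebraMap] at this
  haveI : Nontrivial R := by
    obtain ⟨z, -⟩ := hxj
    exact PrimeSpectrum.nonempty_iff_nontrivial.1 ⟨z⟩
  obtain ⟨m, hm⟩ := Ideal.exists_maximal R
  obtain ⟨φ, -⟩ := exists_point_of_isMaximal (k := K) m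
  refine ⟨⟨(specOver φ).1 ≫ j, ?_⟩, ?_⟩
  · rw [Category.assoc, ← hg, (specOver φ).2]
    show Spec.map (CommRingCat.ofHom (RingHom.id K)) = _
    rw [CommRingCat.ofHom_id, Spec.map_id]
  · rintro _ ⟨y, rfl⟩
    exact hjV ⟨_, (Scheme.Hom.comp_apply _ _ _).symm⟩

/-- The structure scheme of a geometrically integral scheme over a field is irreducible. -/
theorem irreducibleSpace_of_geometricallyIntegral {K : Type u} [Field K] {X : Scheme.{u}}
    (h : X ⟶ Spec (CommRingCat.of K)) [hgi : GeometricallyIntegral h] : IrreducibleSpace X := by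
  haveI : IsIntegral X := hgi.geometrically_isIntegral (𝟙 _) (𝟙 X) h
    (IsPullback.of_horiz_isIso ⟨by simp⟩)
  infer_instance

section Fibre

variable {R : Type u} [CommRing R] [Algebra k R] {K : Type u} [Field K] [Algebra k K]

/-- The fibre at a point is the curve over the point. -/
theorem isAlgEquivZero_fibre_iff (M : RigidifiedLineBundle c ε (specStr k R)) (φ : R →ₐ[k] K) :
    IsAlgEquivZero (fibreAt c (specStr k R) (specOver φ).1)
        ((Scheme.Modules.pullback (pullback.fst (pullback.snd c (specStr k R)) (specOver φ).1)).obj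
          M.L) ↔
      IsAlgEquivZero (pullback.snd c (specStr k K)) (M.pullbackAlong (specOver φ)).L := by
  let e : pullback c (specStr k K) ⟶ pullback (pullback.snd c (specStr k R)) (specOver φ).1 :=
    pullback.lift (baseChangeSnd c (specOver φ)) (pullback.snd _ _)
      (by simp only [baseChangeSnd, pullback.map, pullback.lift_snd])
  let e' : pullback (pullback.snd c (specStr k R)) (specOver φ).1 ⟶ pullback c (specStr k K) :=
    pullback.lift (pullback.fst _ _ ≫ pullback.fst _ _) (pullback.snd _ _) (by
      rw [Category.assoc, pullback.condition (f := c), ← Category.assoc, pullback.condition,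
        Category.assoc, (specOver φ).2])
  have he : e ≫ fibreAt c (specStr k R) (specOver φ).1 = pullback.snd c (specStr k K) :=
    pullback.lift_snd _ _ _
  have he' : e' ≫ pullback.snd c (specStr k K) = fibreAt c (specStr k R) (specOver φ).1 :=
    pullback.lift_snd _ _ _
  have hfst' : e' ≫ baseChangeSnd c (specOver φ) = pullback.fst _ _ := by
    apply pullback.hom_ext
    · simp only [e', baseChangeSnd, pullback.map, Category.assoc, pullback.lift_fst,
        Category.comp_id]
    · simp only [e', baseChangeSnd, pullback.map, Category.assoc, pullback.lift_snd,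
        pullback.lift_snd_assoc, pullback.condition]
  constructor
  · intro h
    refine IsAlgEquivZero.of_iso ?_ (h.pullback e he)
    exact (Scheme.Modules.pullbackComp _ _).app M.L ≪≫
      (Scheme.Modules.pullbackCongr (pullback.lift_fst _ _ _)).app M.L
  · intro h
    refine IsAlgEquivZero.of_iso ?_ (h.pullback e' he')
    exact (Scheme.Modules.pullbackComp _ _).app M.L ≪≫
      (Scheme.Modules.pullbackCongr hfst').app M.L

end Fibre

end FLTAgent.JacRep
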